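import Mathlib

/-!
# S52 [HIT], ℓ-adic route (prefix `s52hq_`): the interpolation determinant

* `s52hq_divdiff_zero` : `m + 1` integer nodes `u ∈ S`, integer values `y u` congruent mod `N` to the
  values of a polynomial of degree `< m`, with `(m+1) · Y · L^(m·m) < N` (`|y u| ≤ Y`,
  `|u - u'| ≤ L`): the `m`-th divided difference `∑ y u / ∏_{u' ≠ u} (u - u')` vanishes.
* `s52hq_common_poly` : if all `m`-th divided differences over `(m+1)`-subsets of `S` vanish, the
  values on `S` are those of one polynomial of degree `< m`.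
-/

set_option autoImplicit false

namespace Fermat.Agent.S52

open Polynomial Finset

/-- The cast `ℤ → ℚ` as a node map. -/
def s52hq_v : ℤ → ℚ := fun u => (u : ℚ)

theorem s52hq_v_injOn (S : Finset ℤ) : Set.InjOn s52hq_v (S : Set ℤ) :=
  fun _ _ _ _ h => Int.cast_injective h

/-- The `m`-th divided difference of `y` over the nodes `S`. -/
noncomputable def s52hq_dd (S : Finset ℤ) (y : ℤ → ℚ) : ℚ :=
  ∑ u ∈ S, y u / ∏ u' ∈ S.erase u, (s52hq_v u - s52hq_v u')

/-- The integer `∏_{v ∈ S, v ≠ u} ∏_{u' ∈ S, u' ≠ v} (v - u')`. -/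
def s52hq_Z (S : Finset ℤ) (u : ℤ) : ℤ := ∏ v ∈ S.erase u, ∏ u' ∈ S.erase v, (v - u')

/-- The integer `∏_{v ∈ S} ∏_{u' ∈ S, u' ≠ v} (v - u')`. -/
def s52hq_W (S : Finset ℤ) : ℤ := ∏ v ∈ S, ∏ u' ∈ S.erase v, (v - u')

theorem s52hq_W_eq (S : Finset ℤ) {u : ℤ} (hu : u ∈ S) :
    s52hq_W S = (∏ u' ∈ S.erase u, (u - u')) * s52hq_Z S u := by
  unfold s52hq_W s52hq_Z
  exact (Finset.mul_prod_erase S (fun v => ∏ u' ∈ S.erase v, (v - u')) hu).symm

theorem s52hq_W_ne_zero (S : Finset ℤ) : s52hq_W S ≠ 0 := by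
  unfold s52hq_W
  refine Finset.prod_ne_zero_iff.mpr fun v _ => Finset.prod_ne_zero_iff.mpr fun u' hu' => ?_
  exact sub_ne_zero.mpr (Finset.ne_of_mem_erase hu').symm

theorem s52hq_dd_mul_W (S : Finset ℤ) (y : ℤ → ℚ) :
    s52hq_dd S y * (s52hq_W S : ℚ) = ∑ u ∈ S, y u * (s52hq_Z S u : ℚ) := by
  unfold s52hq_dd
  rw [Finset.sum_mul]
  refine Finset.sum_congr rfl fun u hu => ?_
  have hne : (∏ u' ∈ S.erase u, (s52hq_v u - s52hq_v u')) ≠ 0 := by
    refine Finset.prod_ne_zero_iff.mpr fun u' hu' => ?_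
    refine sub_ne_zero.mpr fun h => ?_
    exact (Finset.ne_of_mem_erase hu') (Int.cast_injective h).symm
  have hW : (s52hq_W S : ℚ) = (∏ u' ∈ S.erase u, (s52hq_v u - s52hq_v u')) * (s52hq_Z S u : ℚ) := by
    rw [s52hq_W_eq S hu, Int.cast_mul, Int.cast_prod]
    congr 1
    refine Finset.prod_congr rfl fun u' _ => ?_
    simp [s52hq_v]
  rw [hW]
  field_simp

/-- The divided difference of order `#S - 1` kills polynomials of smaller degree. -/
theorem s52hq_dd_poly (S : Finset ℤ) (m : ℕ) (hS : S.card = m + 1) (P : Polynomial ℚ)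
    (hP : P.natDegree < m) : s52hq_dd S (fun u => P.eval (s52hq_v u)) = 0 := by
  have hdeg : P.degree < (S.card : WithBot ℕ) := by
    refine lt_of_le_of_lt Polynomial.degree_le_natDegree ?_
    rw [hS]
    exact_mod_cast (by omega : P.natDegree < m + 1)
  have h := Lagrange.coeff_eq_sum (s52hq_v_injOn S) hdeg
  unfold s52hq_dd
  rw [← h, hS, Nat.add_sub_cancel]
  exact Polynomial.coeff_eq_zero_of_natDegree_lt hP

theorem s52hq_abs_Z_le (S : Finset ℤ) (m : ℕ) (hS : S.card = m + 1) (L : ℤ)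
    (hL : ∀ u ∈ S, ∀ u' ∈ S, |u - u'| ≤ L) {u : ℤ} (hu : u ∈ S) :
    |s52hq_Z S u| ≤ L ^ (m * m) := by
  unfold s52hq_Z
  rw [Finset.abs_prod]
  have hcard : ∀ v ∈ S, (S.erase v).card = m := fun v hv => by
    rw [Finset.card_erase_of_mem hv, hS, Nat.add_sub_cancel]
  calc ∏ v ∈ S.erase u, |∏ u' ∈ S.erase v, (v - u')|
      ≤ ∏ _v ∈ S.erase u, L ^ m := by
        refine Finset.prod_le_prod (fun v _ => abs_nonneg _) fun v hv => ?_
        have hvS : v ∈ S := Finset.mem_of_mem_erase hv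
        rw [Finset.abs_prod]
        calc ∏ u' ∈ S.erase v, |v - u'| ≤ ∏ _u' ∈ S.erase v, L :=
              Finset.prod_le_prod (fun u' _ => abs_nonneg _)
                fun u' hu' => hL v hvS u' (Finset.mem_of_mem_erase hu')
          _ = L ^ m := by rw [Finset.prod_const, hcard v hvS]
    _ = L ^ (m * m) := by rw [Finset.prod_const, hcard u hu, ← pow_mul]

/-- **The interpolation determinant vanishes.** -/
theorem s52hq_divdiff_zero (m : ℕ) (S : Finset ℤ) (hS : S.card = m + 1) (y : ℤ → ℤ)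
    (P : Polynomial ℤ) (hP : P.natDegree < m) (N : ℤ)
    (hcong : ∀ u ∈ S, N ∣ y u - P.eval u) (Y L : ℤ) (hY : ∀ u ∈ S, |y u| ≤ Y)
    (hL : ∀ u ∈ S, ∀ u' ∈ S, |u - u'| ≤ L) (hbound : ((m : ℤ) + 1) * Y * L ^ (m * m) < N) :
    s52hq_dd S (fun u => (y u : ℚ)) = 0 := by
  have hne : S.Nonempty := Finset.card_pos.mp (by omega)
  obtain ⟨u₀, hu₀⟩ := hne
  have hY0 : 0 ≤ Y := le_trans (abs_nonneg _) (hY u₀ hu₀)
  have hL0 : 0 ≤ L := le_trans (abs_nonneg _) (hL u₀ hu₀ u₀ hu₀)
  -- the polynomial part contributes nothing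
  have hPq : s52hq_dd S (fun u => ((P.eval u : ℤ) : ℚ)) = 0 := by
    have h := s52hq_dd_poly S m hS (P.map (Int.castRingHom ℚ))
      (lt_of_le_of_lt (Polynomial.natDegree_map_le) hP)
    have e : (fun u : ℤ => (P.map (Int.castRingHom ℚ)).eval (s52hq_v u)) =
        fun u => ((P.eval u : ℤ) : ℚ) := by
      funext u
      simp [s52hq_v, Polynomial.eval_map, Polynomial.eval₂_at_intCast]
    rwa [e] at h
  have hPz : ∑ u ∈ S, P.eval u * s52hq_Z S u = 0 := by
    have h := s52hq_dd_mul_W S (fun u => ((P.eval u : ℤ) : ℚ))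
    rw [hPq, zero_mul] at h
    have : ((∑ u ∈ S, P.eval u * s52hq_Z S u : ℤ) : ℚ) = 0 := by
      rw [h, Int.cast_sum]
      exact Finset.sum_congr rfl fun u _ => by rw [Int.cast_mul]
    exact_mod_cast this
  set I : ℤ := ∑ u ∈ S, y u * s52hq_Z S u with hI
  have hdvd : N ∣ I := by
    have e : I = ∑ u ∈ S, (y u - P.eval u) * s52hq_Z S u := by
      rw [hI, ← sub_zero (∑ u ∈ S, y u * s52hq_Z S u), ← hPz, ← Finset.sum_sub_distrib]
      exact Finset.sum_congr rfl fun u _ => by ring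
    rw [e]
    exact Finset.dvd_sum fun u hu => Dvd.dvd.mul_right (hcong u hu) _
  have habs : |I| < N := by
    refine lt_of_le_of_lt ?_ hbound
    calc |I| ≤ ∑ u ∈ S, |y u * s52hq_Z S u| := Finset.abs_sum_le_sum_abs _ _
      _ ≤ ∑ _u ∈ S, Y * L ^ (m * m) := by
        refine Finset.sum_le_sum fun u hu => ?_
        rw [abs_mul]
        exact mul_le_mul (hY u hu) (s52hq_abs_Z_le S m hS L hL hu) (abs_nonneg _) hY0
      _ = ((m : ℤ) + 1) * Y * L ^ (m * m) := by
        rw [Finset.sum_const, hS, nsmul_eq_mul]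
        push_cast
        ring
  have hI0 : I = 0 := Int.eq_zero_of_abs_lt_dvd hdvd habs
  have h := s52hq_dd_mul_W S (fun u => (y u : ℚ))
  have h2 : (∑ u ∈ S, (y u : ℚ) * (s52hq_Z S u : ℚ)) = ((I : ℤ) : ℚ) := by
    rw [hI, Int.cast_sum]
    exact Finset.sum_congr rfl fun u _ => by rw [Int.cast_mul]
  rw [h2, hI0, Int.cast_zero] at h
  rcases mul_eq_zero.mp h with h | h
  · exact h
  · exact absurd (by exact_mod_cast h) (s52hq_W_ne_zero S)

/-- **All points on one polynomial of degree `< m`.** -/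
theorem s52hq_common_poly (m : ℕ) (S : Finset ℤ) (hS : m ≤ S.card) (y : ℤ → ℚ)
    (hD : ∀ S₁ ⊆ S, S₁.card = m + 1 → s52hq_dd S₁ y = 0) :
    ∃ Q : Polynomial ℚ, Q.degree < (m : WithBot ℕ) ∧ ∀ u ∈ S, Q.eval (s52hq_v u) = y u := by
  classical
  obtain ⟨S₀, hS₀, hcard₀⟩ := Finset.exists_subset_card_eq hS
  have hv₀ := s52hq_v_injOn S₀
  refine ⟨Lagrange.interpolate S₀ s52hq_v y, ?_, fun u hu => ?_⟩
  · have := Lagrange.degree_interpolate_lt y hv₀
    rwa [hcard₀] at this
  · by_cases hu₀ : u ∈ S₀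
    · exact Lagrange.eval_interpolate_at_node y hv₀ hu₀
    · set S₁ := insert u S₀ with hS₁
      have hsub : S₁ ⊆ S := Finset.insert_subset hu hS₀
      have hcard₁ : S₁.card = m + 1 := by rw [hS₁, Finset.card_insert_of_notMem hu₀, hcard₀]
      have hv₁ := s52hq_v_injOn S₁
      set Q₁ := Lagrange.interpolate S₁ s52hq_v y with hQ₁
      have hdeg₁ : Q₁.degree < (S₁.card : WithBot ℕ) := Lagrange.degree_interpolate_lt y hv₁
      have hcoeff : Q₁.coeff m = 0 := by
        have h := Lagrange.coeff_eq_sum hv₁ hdeg₁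
        rw [hcard₁, Nat.add_sub_cancel] at h
        rw [h, ← hD S₁ hsub hcard₁]
        unfold s52hq_dd
        refine Finset.sum_congr rfl fun i hi => ?_
        rw [hQ₁, Lagrange.eval_interpolate_at_node y hv₁ hi]
      have hdeg₁' : Q₁.degree < (m : WithBot ℕ) := by
        rw [Polynomial.degree_lt_iff_coeff_zero]
        intro k hk
        rcases Nat.eq_or_lt_of_le hk with h | h
        · rw [← h]; exact hcoeff
        · refine Polynomial.coeff_eq_zero_of_degree_lt (lt_of_lt_of_le hdeg₁ ?_)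
          rw [hcard₁]
          exact_mod_cast h
      have hQ₀deg : (Lagrange.interpolate S₀ s52hq_v y).degree < (S₀.card : WithBot ℕ) :=
        Lagrange.degree_interpolate_lt y hv₀
      have heq : Q₁ = Lagrange.interpolate S₀ s52hq_v y := by
        refine Polynomial.eq_of_degrees_lt_of_eval_index_eq S₀ hv₀ (by rwa [hcard₀]) hQ₀deg
          fun i hi => ?_
        rw [Lagrange.eval_interpolate_at_node y hv₀ hi, hQ₁,
          Lagrange.eval_interpolate_at_node y hv₁ (Finset.mem_insert_of_mem hi)]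
      rw [← heq, hQ₁]
      exact Lagrange.eval_interpolate_at_node y hv₁ (Finset.mem_insert_self u S₀)

end Fermat.Agent.S52
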