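import Fermat.Agent.S52.HITP.Class
import Fermat.Agent.S52.HITP.Interp

/-!
# S52 [HIT], ℓ-adic route (prefix `s52hq_`): size of integer roots, and roots on a polynomial curve

* `s52hq_cauchy` : Cauchy's bound for integer roots of a monic integer polynomial;
* `s52hq_root_bound` : `|z| ≤ (1 + A) |t|^d` for an integer root `z` of `P(t, ·)`, `|t| ≥ 1`;
* `s52hq_root_count` : at most `d + n (m - 1)` integers `u` with `P(c₀ + ℓ u, Q(u)) = 0` when `P` has
  no root in `ℚ[t]` and `deg Q < m`.
-/

set_option autoImplicit false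

namespace Fermat.Agent.S52

open Polynomial Finset

/-- Cauchy's bound. -/
theorem s52hq_cauchy (h : Polynomial ℤ) (hm : h.Monic) (z : ℤ) (hz : h.eval z = 0) :
    |z| ≤ max 1 (∑ k ∈ Finset.range h.natDegree, |h.coeff k|) := by
  by_cases h1 : |z| ≤ 1
  · exact le_max_of_le_left h1
  rw [not_le] at h1
  refine le_max_of_le_right ?_
  set n := h.natDegree with hn
  have hsum : z ^ n = -∑ k ∈ Finset.range n, h.coeff k * z ^ k := by
    have := Polynomial.eval_eq_sum_range (p := h) z
    rw [hz, Finset.sum_range_succ, ← hn, hn, hm.coeff_natDegree, one_mul, ← hn] at this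
    linarith
  rcases Nat.eq_zero_or_pos n with h0 | hpos
  · rw [h0, pow_zero, Finset.range_zero, Finset.sum_empty, neg_zero] at hsum
    exact absurd hsum one_ne_zero
  have hzpos : 0 < |z| := lt_trans zero_lt_one h1
  have hle : |z| ^ n ≤ (∑ k ∈ Finset.range n, |h.coeff k|) * |z| ^ (n - 1) := by
    rw [← abs_pow, hsum, abs_neg, Finset.sum_mul]
    refine le_trans (Finset.abs_sum_le_sum_abs _ _) (Finset.sum_le_sum fun k hk => ?_)
    rw [abs_mul, abs_pow]
    refine mul_le_mul_of_nonneg_left ?_ (abs_nonneg _)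
    exact pow_le_pow_right₀ (le_of_lt h1) (by have := Finset.mem_range.mp hk; omega)
  have e : |z| ^ n = |z| * |z| ^ (n - 1) := by
    rw [← pow_succ', Nat.sub_add_cancel hpos]
  rw [e] at hle
  exact le_of_mul_le_mul_right hle (pow_pos hzpos _)

/-- The degree bound `d` of the coefficients. -/
noncomputable def s52hq_d (P : Polynomial (Polynomial ℤ)) : ℕ :=
  (Finset.range (P.natDegree + 1)).sup fun k => (P.coeff k).natDegree

/-- The total `ℓ¹`-norm of the lower coefficients. -/
noncomputable def s52hq_A (P : Polynomial (Polynomial ℤ)) : ℤ :=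
  ∑ k ∈ Finset.range P.natDegree, ∑ j ∈ Finset.range (s52hq_d P + 1), |(P.coeff k).coeff j|

theorem s52hq_A_nonneg (P : Polynomial (Polynomial ℤ)) : 0 ≤ s52hq_A P :=
  Finset.sum_nonneg fun _ _ => Finset.sum_nonneg fun _ _ => abs_nonneg _

theorem s52hq_coeff_natDegree_le (P : Polynomial (Polynomial ℤ)) {k : ℕ} (hk : k ≤ P.natDegree) :
    (P.coeff k).natDegree ≤ s52hq_d P :=
  Finset.le_sup (f := fun k => (P.coeff k).natDegree) (Finset.mem_range.mpr (by omega))

theorem s52hq_abs_eval_le (p : Polynomial ℤ) (d : ℕ) (hd : p.natDegree ≤ d) (t : ℤ) (ht : 1 ≤ |t|) :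
    |p.eval t| ≤ (∑ j ∈ Finset.range (d + 1), |p.coeff j|) * |t| ^ d := by
  rw [Polynomial.eval_eq_sum_range' (lt_of_le_of_lt hd (Nat.lt_succ_self d)), Finset.sum_mul]
  refine le_trans (Finset.abs_sum_le_sum_abs _ _) (Finset.sum_le_sum fun j hj => ?_)
  rw [abs_mul, abs_pow]
  refine mul_le_mul_of_nonneg_left ?_ (abs_nonneg _)
  exact pow_le_pow_right₀ ht (by have := Finset.mem_range.mp hj; omega)

/-- Integer roots of `P(t, ·)` are `O(|t|^d)`. -/
theorem s52hq_root_bound (P : Polynomial (Polynomial ℤ)) (hP : P.Monic) (t z : ℤ) (ht : 1 ≤ |t|)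
    (hz : (s52hq_sp P t).eval z = 0) : |z| ≤ (1 + s52hq_A P) * |t| ^ s52hq_d P := by
  have h1 := s52hq_cauchy (s52hq_sp P t) (s52hq_sp_monic hP t) z hz
  rw [s52hq_sp_natDegree hP] at h1
  have hpow : 1 ≤ |t| ^ s52hq_d P := one_le_pow₀ ht
  have h2 : ∑ k ∈ Finset.range P.natDegree, |(s52hq_sp P t).coeff k| ≤
      s52hq_A P * |t| ^ s52hq_d P := by
    unfold s52hq_A
    rw [Finset.sum_mul]
    refine Finset.sum_le_sum fun k hk => ?_
    have : (s52hq_sp P t).coeff k = (P.coeff k).eval t := by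
      unfold s52hq_sp
      rw [Polynomial.coeff_map, coe_evalRingHom]
    rw [this]
    exact s52hq_abs_eval_le _ _
      (s52hq_coeff_natDegree_le P (le_of_lt (Finset.mem_range.mp hk))) t ht
  refine le_trans h1 (max_le ?_ ?_)
  · calc (1 : ℤ) ≤ 1 * |t| ^ s52hq_d P := by rwa [one_mul]
      _ ≤ (1 + s52hq_A P) * |t| ^ s52hq_d P :=
        mul_le_mul_of_nonneg_right (by linarith [s52hq_A_nonneg P]) (le_trans zero_le_one hpow)
  · refine le_trans h2 (mul_le_mul_of_nonneg_right (by linarith) (le_trans zero_le_one hpow))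

/-- `P` over `ℚ`. -/
noncomputable def s52hq_Pq (P : Polynomial (Polynomial ℤ)) : Polynomial (Polynomial ℚ) :=
  P.map (mapRingHom (Int.castRingHom ℚ))

theorem s52hq_Pq_natDegree_le (P : Polynomial (Polynomial ℤ)) :
    (s52hq_Pq P).natDegree ≤ P.natDegree := Polynomial.natDegree_map_le

theorem s52hq_Pq_eval (P : Polynomial (Polynomial ℤ)) (t : ℤ) :
    (s52hq_Pq P).map (evalRingHom (t : ℚ)) = (s52hq_sp P t).map (Int.castRingHom ℚ) := by
  unfold s52hq_Pq s52hq_sp
  rw [Polynomial.map_map, Polynomial.map_map]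
  congr 1
  refine Polynomial.ringHom_ext (fun a => ?_) ?_
  · simp
  · simp

/-- **Root count on a polynomial curve.** -/
theorem s52hq_root_count (P : Polynomial (Polynomial ℤ))
    (hroot : ∀ r : Polynomial ℚ, (s52hq_Pq P).eval r ≠ 0) (c₀ ℓ : ℤ) (hℓ : ℓ ≠ 0) (m : ℕ)
    (Q : Polynomial ℚ) (hQ : Q.degree < (m : WithBot ℕ)) (S : Finset ℤ) (z : ℤ → ℤ)
    (hS : ∀ u ∈ S, (s52hq_sp P (c₀ + ℓ * u)).eval (z u) = 0 ∧ Q.eval (u : ℚ) = z u) :
    S.card ≤ s52hq_d P + P.natDegree * (m - 1) := by
  classical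
  set lin : Polynomial ℚ := C (c₀ : ℚ) + C (ℓ : ℚ) * X with hlin
  set lin' : Polynomial ℚ := C ((ℓ : ℚ)⁻¹) * (X - C (c₀ : ℚ)) with hlin'
  have hℓq : (ℓ : ℚ) ≠ 0 := by exact_mod_cast hℓ
  set F : Polynomial ℚ := ((s52hq_Pq P).map (compRingHom lin)).eval Q with hF
  -- `F ≠ 0`
  have hF0 : F ≠ 0 := by
    intro h0
    have h1 := s52hq_hom_eval (compRingHom lin') ((s52hq_Pq P).map (compRingHom lin)) Q
    rw [← hF, h0, map_zero, Polynomial.map_map] at h1
    have hid : (compRingHom lin').comp (compRingHom lin) = RingHom.id (Polynomial ℚ) := by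
      refine Polynomial.ringHom_ext (fun a => ?_) ?_
      · simp
      · simp only [RingHom.comp_apply, coe_compRingHom, X_comp, RingHom.id_apply, hlin, hlin']
        simp only [add_comp, C_comp, mul_comp, X_comp]
        rw [← mul_assoc, ← C_mul, mul_inv_cancel₀ hℓq]
        simp
    rw [hid, Polynomial.map_id] at h1
    exact hroot _ h1.symm
  -- degree of `F`
  have hQnat : Q.natDegree ≤ m - 1 := by
    by_cases hQ0 : Q = 0
    · simp [hQ0]
    · have := (Polynomial.natDegree_lt_iff_degree_lt hQ0).mpr hQ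
      omega
  have hlindeg : lin.natDegree ≤ 1 := by
    rw [hlin]
    refine le_trans (Polynomial.natDegree_add_le _ _) (max_le (by simp) ?_)
    refine le_trans Polynomial.natDegree_mul_le ?_
    rw [Polynomial.natDegree_C, zero_add]
    exact Polynomial.natDegree_X_le
  have hFdeg : F.natDegree ≤ s52hq_d P + P.natDegree * (m - 1) := by
    rw [hF, Polynomial.eval_eq_sum_range' (n := P.natDegree + 1)
      (lt_of_le_of_lt (le_trans Polynomial.natDegree_map_le (s52hq_Pq_natDegree_le P))
        (Nat.lt_succ_self _))]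
    refine Polynomial.natDegree_sum_le_of_forall_le _ _ fun k hk => ?_
    have hk' : k ≤ P.natDegree := by have := Finset.mem_range.mp hk; omega
    refine le_trans Polynomial.natDegree_mul_le (add_le_add ?_ ?_)
    · rw [Polynomial.coeff_map, coe_compRingHom]
      refine le_trans Polynomial.natDegree_comp_le ?_
      have h1 : ((s52hq_Pq P).coeff k).natDegree ≤ s52hq_d P := by
        unfold s52hq_Pq
        rw [Polynomial.coeff_map, coe_mapRingHom]
        exact le_trans Polynomial.natDegree_map_le (s52hq_coeff_natDegree_le P hk')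
      calc ((s52hq_Pq P).coeff k).natDegree * lin.natDegree
          ≤ s52hq_d P * 1 := Nat.mul_le_mul h1 hlindeg
        _ = s52hq_d P := mul_one _
    · refine le_trans Polynomial.natDegree_pow_le ?_
      exact Nat.mul_le_mul hk' hQnat
  -- the points of `S` are roots of `F`
  have hroots : ∀ u ∈ S, F.eval (u : ℚ) = 0 := by
    intro u hu
    obtain ⟨h1, h2⟩ := hS u hu
    have h3 := s52hq_hom_eval (evalRingHom (u : ℚ)) ((s52hq_Pq P).map (compRingHom lin)) Q
    rw [← hF, coe_evalRingHom, Polynomial.map_map] at h3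
    have hcomp : (evalRingHom (u : ℚ)).comp (compRingHom lin) =
        evalRingHom (((c₀ + ℓ * u : ℤ) : ℚ)) := by
      refine Polynomial.ringHom_ext (fun a => ?_) ?_
      · simp
      · simp [hlin]
    rw [hcomp, s52hq_Pq_eval, h2] at h3
    rw [h3, Polynomial.eval_intCast_map, Int.cast_id, h1, map_zero]
  have hsub : (S.image (fun u : ℤ => (u : ℚ))).val ⊆ F.roots := by
    intro x hx
    rw [Finset.mem_val, Finset.mem_image] at hx
    obtain ⟨u, hu, rfl⟩ := hx
    exact (Polynomial.mem_roots hF0).mpr (hroots u hu)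
  have hcard := Polynomial.card_le_degree_of_subset_roots hsub
  rw [Finset.card_image_of_injective _ Int.cast_injective] at hcard
  exact le_trans hcard hFdeg

end Fermat.Agent.S52
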