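import Fermat.Agent.S52.HITP.Taylor

/-!
# S52 [HIT], ℓ-adic route (prefix `s52hq_`): the ℓ-adic Taylor polynomial of a residue class

`P : Polynomial (Polynomial ℤ)` (outer variable `Y`, inner variable `t`), `s52hq_sp P t = P(t, ·)`.

* `s52hq_deriv_not_dvd` : from a Bezout identity `P * A + ∂_Y P * B = C R`: at an integer point
  `(t, z)` of `P`, a prime `ℓ ∤ R(t)` does not divide `∂_Y P(t, z)`;
* `s52hq_class_poly` : for an integer point `(t*, z*)` with `ℓ ∤ ∂_Y P(t*, z*)` and `m ≥ 1` there is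
  `Q ∈ ℤ[s]` of degree `< m` such that every integer point `(t* + s₀, z)` with `ℓ ∣ s₀`,
  `z ≡ z* (ℓ)`, `ℓ ∤ ∂_Y P(t* + s₀, z)` has `z ≡ Q(s₀) mod ℓ^m`.
-/

set_option autoImplicit false

namespace Fermat.Agent.S52

open Polynomial

/-- The specialisation `P(t, ·)`. -/
noncomputable def s52hq_sp (P : Polynomial (Polynomial ℤ)) (t : ℤ) : Polynomial ℤ :=
  P.map (evalRingHom t)

theorem s52hq_sp_monic {P : Polynomial (Polynomial ℤ)} (hP : P.Monic) (t : ℤ) :
    (s52hq_sp P t).Monic := hP.map _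

theorem s52hq_sp_natDegree {P : Polynomial (Polynomial ℤ)} (hP : P.Monic) (t : ℤ) :
    (s52hq_sp P t).natDegree = P.natDegree := hP.natDegree_map _

theorem s52hq_sp_derivative (P : Polynomial (Polynomial ℤ)) (t : ℤ) :
    (s52hq_sp P t).derivative = s52hq_sp (derivative P) t :=
  Polynomial.derivative_map P (evalRingHom t)

/-- Bezout at an integer point. -/
theorem s52hq_deriv_not_dvd {P A B : Polynomial (Polynomial ℤ)} {R : Polynomial ℤ}
    (hbez : P * A + derivative P * B = C R) {t z : ℤ} (hz : (s52hq_sp P t).eval z = 0)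
    {ℓ : ℤ} (hℓ : ¬ ℓ ∣ R.eval t) : ¬ ℓ ∣ (s52hq_sp P t).derivative.eval z := by
  intro h
  apply hℓ
  have h1 := congrArg (fun p : Polynomial (Polynomial ℤ) => (p.map (evalRingHom t)).eval z) hbez
  simp only [Polynomial.map_add, Polynomial.map_mul, Polynomial.eval_add, Polynomial.eval_mul,
    Polynomial.map_C, Polynomial.eval_C, coe_evalRingHom] at h1
  rw [s52hq_sp_derivative] at h
  unfold s52hq_sp at hz h
  rw [hz, zero_mul, zero_add] at h1
  rw [← h1]
  exact Dvd.dvd.mul_right h _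

/-- The translate `P(t* + s, Y)` as a polynomial in `Y` over `ℤ[s]`. -/
noncomputable def s52hq_shift (P : Polynomial (Polynomial ℤ)) (t : ℤ) : Polynomial (Polynomial ℤ) :=
  P.map (compRingHom (C t + X))

theorem s52hq_shift_eval (P : Polynomial (Polynomial ℤ)) (t s : ℤ) :
    (s52hq_shift P t).map (evalRingHom s) = s52hq_sp P (t + s) := by
  unfold s52hq_shift s52hq_sp
  rw [Polynomial.map_map]
  congr 1
  refine Polynomial.ringHom_ext (fun a => ?_) ?_
  · simp
  · simp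

/-- **The Taylor polynomial of a residue class.** -/
theorem s52hq_class_poly (P : Polynomial (Polynomial ℤ)) {ℓ : ℕ} (hℓ : ℓ.Prime) (m : ℕ)
    (t z : ℤ) (hz : (s52hq_sp P t).eval z = 0)
    (hd : ¬ (ℓ : ℤ) ∣ (s52hq_sp P t).derivative.eval z) :
    ∃ Q : Polynomial ℤ, Q.natDegree < m + 1 ∧
      ∀ s₀ z' : ℤ, (ℓ : ℤ) ∣ s₀ → (s52hq_sp P (t + s₀)).eval z' = 0 → (ℓ : ℤ) ∣ z' - z →
        ¬ (ℓ : ℤ) ∣ (s52hq_sp P (t + s₀)).derivative.eval z' →
        (ℓ : ℤ) ^ (m + 1) ∣ z' - Q.eval s₀ := by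
  set n : ℕ := ℓ ^ (m + 1) with hn
  set ι : ℤ →+* ZMod n := Int.castRingHom (ZMod n) with hι
  set G : Polynomial (Polynomial ℤ) := s52hq_shift P t with hG
  set GR : Polynomial (Polynomial (ZMod n)) := G.map (mapRingHom ι) with hGR
  -- the specialisation of `GR` at `s = 0`
  have hG0 : GR.map (evalRingHom 0) = (s52hq_sp P t).map ι := by
    rw [hGR, Polynomial.map_map]
    have h1 := s52hq_shift_eval P t 0
    rw [add_zero] at h1
    rw [← h1, ← hG, Polynomial.map_map]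
    congr 1
    refine Polynomial.ringHom_ext (fun a => ?_) ?_
    · simp
    · simp
  have h0 : (GR.map (evalRingHom 0)).eval (ι z) = 0 := by
    rw [hG0, Polynomial.eval_map_apply, hz, map_zero]
  have h1 : IsUnit ((GR.map (evalRingHom 0)).derivative.eval (ι z)) := by
    rw [hG0, Polynomial.derivative_map, Polynomial.eval_map_apply]
    show IsUnit (((s52hq_sp P t).derivative.eval z : ℤ) : ZMod n)
    rw [ZMod.coe_int_isUnit_iff_isCoprime, hn, Nat.cast_pow]
    refine IsCoprime.pow_left ?_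
    rw [Int.isCoprime_iff_gcd_eq_one]
    have hp : Prime (ℓ : ℤ) := Nat.prime_iff_prime_int.mp hℓ
    by_contra hne
    apply hd
    have hg : Int.gcd (ℓ : ℤ) ((s52hq_sp P t).derivative.eval z) ∣ ℓ := by
      have := Int.gcd_dvd_left (ℓ : ℤ) ((s52hq_sp P t).derivative.eval z)
      exact_mod_cast this
    rcases (Nat.dvd_prime hℓ).mp hg with h | h
    · exact absurd h hne
    · have := Int.gcd_dvd_right (ℓ : ℤ) ((s52hq_sp P t).derivative.eval z)
      rwa [h] at this
  obtain ⟨QR, hQdeg, hQ0, H, hH⟩ := s52hq_taylor GR (ι z) h0 h1 m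
  -- lift to `ℤ`
  obtain ⟨Q, hQmap, hQnat⟩ := Polynomial.exists_natDegree_eq_of_mem_lifts
    ((Polynomial.mem_lifts (f := ι) QR).mpr
      (Polynomial.map_surjective ι (ZMod.intCast_surjective) QR))
  refine ⟨Q, by rw [hQnat]; exact hQdeg, ?_⟩
  intro s₀ z' hs₀ hz' hzz' hd'
  -- `ℓ^(m+1) ∣ P(t + s₀, Q(s₀))`
  have hval : (ℓ : ℤ) ^ (m + 1) ∣ (s52hq_sp P (t + s₀)).eval (Q.eval s₀) := by
    have e1 : (s52hq_sp P (t + s₀)).eval (Q.eval s₀) = (G.eval Q).eval s₀ := by
      have := s52hq_hom_eval (evalRingHom s₀) G Q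
      rw [coe_evalRingHom, hG, s52hq_shift_eval] at this
      exact this.symm
    have e2 : (G.eval Q).map ι = X ^ (m + 1) * H := by
      have := s52hq_hom_eval (mapRingHom ι) G Q
      rw [coe_mapRingHom, hQmap] at this
      rw [this, ← hGR, hH]
    rw [e1]
    have e3 : ι ((G.eval Q).eval s₀) = 0 := by
      rw [← Polynomial.eval_map_apply, e2, Polynomial.eval_mul, Polynomial.eval_pow,
        Polynomial.eval_X]
      obtain ⟨k, rfl⟩ := hs₀
      have : ι ((ℓ : ℤ) * k) ^ (m + 1) = 0 := by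
        rw [map_mul, mul_pow, ← map_pow]
        have : ι ((ℓ : ℤ) ^ (m + 1)) = 0 := by
          rw [hι, eq_intCast, ZMod.intCast_zmod_eq_zero_iff_dvd, hn]
          push_cast
          exact dvd_rfl
        rw [this, zero_mul]
      rw [this, zero_mul]
    have := (ZMod.intCast_zmod_eq_zero_iff_dvd ((G.eval Q).eval s₀) n).mp (by simpa [hι] using e3)
    rw [hn] at this
    exact_mod_cast this
  -- `Q(s₀) ≡ z ≡ z'  (mod ℓ)`
  have hQz : (ℓ : ℤ) ∣ Q.coeff 0 - z := by
    have h2 : ι (Q.coeff 0) = ι z := by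
      rw [← Polynomial.coeff_map, hQmap, hQ0]
    have h3 := (ZMod.intCast_eq_intCast_iff_dvd_sub z (Q.coeff 0) n).mp (by simpa [hι] using h2.symm)
    refine dvd_trans ?_ h3
    rw [hn]
    push_cast
    exact dvd_pow_self _ (Nat.succ_ne_zero m)
  have hcong : (ℓ : ℤ) ∣ Q.eval s₀ - z' := by
    have h4 : (ℓ : ℤ) ∣ Q.eval s₀ - Q.eval 0 :=
      dvd_trans (by simpa using hs₀) (Polynomial.sub_dvd_eval_sub s₀ 0 Q)
    rw [← Polynomial.coeff_zero_eq_eval_zero] at h4
    have : Q.eval s₀ - z' = (Q.eval s₀ - Q.coeff 0) + (Q.coeff 0 - z) - (z' - z) := by ring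
    rw [this]
    exact dvd_sub (dvd_add h4 hQz) hzz'
  have := s52hq_unique (s52hq_sp P (t + s₀)) hℓ (m + 1) z' (Q.eval s₀) hz' hval hcong hd'
  rw [← dvd_neg, neg_sub] at this
  exact this

end Fermat.Agent.S52
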