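import Fermat.Agent.S52.HITP.Bounds

/-!
# S52 [HIT], ℓ-adic route (prefix `s52hq_`): the core theorem

`P ∈ ℤ[t][Y]` monic in `Y`, with a Bezout identity `P * A + ∂_Y P * B = C R`, `R ≠ 0`, and without
root in `ℚ[t]`.  Then for every `N` there is an integer `t ≥ N` such that `P(t, ·)` has no integer
root (`s52hq_core`).  More precisely (`s52hq_block`): for `R(c₀) ≠ 0` there are `L₀`, `ℓ₀` such that for
every prime `ℓ ≥ ℓ₀` some `t = c₀ + ℓ u`, `1 ≤ u ≤ L₀`, is good.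
-/

set_option autoImplicit false

namespace Fermat.Agent.S52

open Polynomial Finset

/-- `P(t, z)` as a polynomial in `t`. -/
theorem s52hq_evalC (P : Polynomial (Polynomial ℤ)) (z t : ℤ) :
    (P.eval (C z)).eval t = (s52hq_sp P t).eval z := by
  have := s52hq_hom_eval (evalRingHom t) P (C z)
  simpa [s52hq_sp] using this

theorem s52hq_block (P : Polynomial (Polynomial ℤ)) (hP : P.Monic)
    (A B : Polynomial (Polynomial ℤ)) (R : Polynomial ℤ)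
    (hbez : P * A + derivative P * B = C R)
    (hroot : ∀ r : Polynomial ℚ, (s52hq_Pq P).eval r ≠ 0) (c₀ : ℤ) (hc₀ : R.eval c₀ ≠ 0) :
    ∃ L₀ ℓ₀ : ℕ, ∀ ℓ : ℕ, ℓ.Prime → ℓ₀ ≤ ℓ →
      ∃ u ∈ Finset.Icc (1 : ℤ) L₀, ∀ z : ℤ, (s52hq_sp P (c₀ + ℓ * u)).eval z ≠ 0 := by
  classical
  set n := P.natDegree with hn
  set d := s52hq_d P with hd
  set m := d + 1 with hm
  set K₁ := d + n * d + 1 with hK₁
  set L₀ : ℕ := n * K₁ + 1 with hL₀
  set C₀ : ℤ := ((m : ℤ) + 1) * (1 + s52hq_A P) * ((L₀ : ℤ) + 1) ^ d * (L₀ : ℤ) ^ (m * m) with hC₀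
  have hC₀nn : 0 ≤ C₀ := by
    have := s52hq_A_nonneg P
    positivity
  refine ⟨L₀, (|c₀| + 1 + (|R.eval c₀| + 1) + (C₀ + 1)).toNat, fun ℓ hℓ hge => ?_⟩
  have hgeZ : |c₀| + 1 + (|R.eval c₀| + 1) + (C₀ + 1) ≤ (ℓ : ℤ) := by
    have := Int.toNat_le.mp hge
    exact this
  have hℓc : |c₀| + 1 ≤ (ℓ : ℤ) := by linarith [abs_nonneg (R.eval c₀)]
  have hℓR : |R.eval c₀| < (ℓ : ℤ) := by linarith [abs_nonneg c₀]
  have hℓC : C₀ < (ℓ : ℤ) := by linarith [abs_nonneg c₀, abs_nonneg (R.eval c₀)]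
  have hℓpos : (0 : ℤ) < ℓ := by exact_mod_cast hℓ.pos
  have : Fact ℓ.Prime := ⟨hℓ⟩
  by_contra hcon
  push Not at hcon
  choose! z hz using hcon
  -- basic facts on the block
  have hRt : ∀ u : ℤ, ¬ (ℓ : ℤ) ∣ R.eval (c₀ + ℓ * u) := by
    intro u hdvd
    have h1 : (ℓ : ℤ) ∣ R.eval (c₀ + ℓ * u) - R.eval c₀ :=
      dvd_trans (by simp) (Polynomial.sub_dvd_eval_sub (c₀ + ℓ * u) c₀ R)
    have h2 : (ℓ : ℤ) ∣ R.eval c₀ := by
      have := dvd_sub hdvd h1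
      simpa using this
    exact hc₀ (Int.eq_zero_of_abs_lt_dvd h2 hℓR)
  have hder : ∀ u ∈ Finset.Icc (1 : ℤ) L₀,
      ¬ (ℓ : ℤ) ∣ (s52hq_sp P (c₀ + ℓ * u)).derivative.eval (z u) :=
    fun u hu => s52hq_deriv_not_dvd hbez (hz u hu) (hRt u)
  set Y : ℤ := (1 + s52hq_A P) * (((L₀ : ℤ) + 1) * ℓ) ^ d with hY
  have hYb : ∀ u ∈ Finset.Icc (1 : ℤ) L₀, |z u| ≤ Y := by
    intro u hu
    obtain ⟨hu1, hu2⟩ := Finset.mem_Icc.mp hu
    have hc := abs_le.mp (show |c₀| ≤ (ℓ : ℤ) - 1 by linarith)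
    have ht1 : 1 ≤ c₀ + ℓ * u := by nlinarith
    have ht2 : c₀ + ℓ * u ≤ ((L₀ : ℤ) + 1) * ℓ := by nlinarith
    have habs : |c₀ + ℓ * u| = c₀ + ℓ * u := abs_of_nonneg (by linarith)
    have h1 := s52hq_root_bound P hP (c₀ + ℓ * u) (z u) (by rw [habs]; exact ht1) (hz u hu)
    refine le_trans h1 ?_
    rw [habs, hY]
    refine mul_le_mul_of_nonneg_left ?_ (by linarith [s52hq_A_nonneg P])
    exact pow_le_pow_left₀ (by linarith) ht2 d
  -- colouring by the residue mod `ℓ`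
  set ι : ℤ →+* ZMod ℓ := Int.castRingHom (ZMod ℓ) with hι
  set T : Finset (ZMod ℓ) := ((s52hq_sp P c₀).map ι).roots.toFinset with hT
  have hmonic : ((s52hq_sp P c₀).map ι).Monic := (s52hq_sp_monic hP c₀).map ι
  have hTcard : T.card ≤ n := by
    refine le_trans (Multiset.toFinset_card_le _) (le_trans (Polynomial.card_roots' _) ?_)
    rw [(s52hq_sp_monic hP c₀).natDegree_map, s52hq_sp_natDegree hP]
  have hmaps : ∀ u ∈ Finset.Icc (1 : ℤ) L₀, ι (z u) ∈ T := by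
    intro u hu
    rw [hT, Multiset.mem_toFinset, Polynomial.mem_roots hmonic.ne_zero, Polynomial.IsRoot,
      Polynomial.eval_map_apply]
    have h1 : (ℓ : ℤ) ∣ (s52hq_sp P c₀).eval (z u) := by
      have h2 := Polynomial.sub_dvd_eval_sub (c₀ + ℓ * u) c₀ (P.eval (C (z u)))
      rw [s52hq_evalC, s52hq_evalC, hz u hu, zero_sub, dvd_neg] at h2
      exact dvd_trans (by simp) h2
    rw [hι, eq_intCast, ZMod.intCast_zmod_eq_zero_iff_dvd]
    exact h1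
  have hcardIcc : (Finset.Icc (1 : ℤ) L₀).card = L₀ := by
    rw [Int.card_Icc]
    omega
  obtain ⟨c, -, hc⟩ := Finset.exists_lt_card_fiber_of_mul_lt_card_of_maps_to
    (s := Finset.Icc (1 : ℤ) L₀) (t := T) (f := fun u => ι (z u)) (n := K₁) hmaps (by
      rw [hcardIcc, hL₀]
      calc T.card * K₁ ≤ n * K₁ := Nat.mul_le_mul_right _ hTcard
        _ < n * K₁ + 1 := Nat.lt_succ_self _)
  set S : Finset ℤ := {u ∈ Finset.Icc (1 : ℤ) L₀ | ι (z u) = c} with hS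
  have hSsub : ∀ u ∈ S, u ∈ Finset.Icc (1 : ℤ) L₀ := fun u hu => (Finset.mem_filter.mp hu).1
  have hScol : ∀ u ∈ S, ι (z u) = c := fun u hu => (Finset.mem_filter.mp hu).2
  obtain ⟨us, hus⟩ : S.Nonempty := Finset.card_pos.mp (lt_of_le_of_lt (Nat.zero_le _) hc)
  -- the Taylor polynomial of the class
  obtain ⟨Qs, hQsdeg, hQs⟩ := s52hq_class_poly P hℓ d (c₀ + ℓ * us) (z us) (hz us (hSsub us hus))
    (hder us (hSsub us hus))
  set Pt : Polynomial ℤ := Qs.comp (C (ℓ : ℤ) * (X - C us)) with hPt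
  have hPtdeg : Pt.natDegree < m := by
    refine lt_of_le_of_lt Polynomial.natDegree_comp_le ?_
    have h1 : (C (ℓ : ℤ) * (X - C us)).natDegree ≤ 1 := by
      refine le_trans Polynomial.natDegree_mul_le ?_
      rw [Polynomial.natDegree_C, zero_add]
      exact le_of_eq (Polynomial.natDegree_X_sub_C us)
    calc Qs.natDegree * (C (ℓ : ℤ) * (X - C us)).natDegree ≤ Qs.natDegree * 1 :=
          Nat.mul_le_mul_left _ h1
      _ = Qs.natDegree := mul_one _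
      _ < m := hQsdeg
  have hcong : ∀ u ∈ S, (ℓ : ℤ) ^ m ∣ z u - Pt.eval u := by
    intro u hu
    have hu' := hSsub u hu
    have e1 : c₀ + ℓ * us + ℓ * (u - us) = c₀ + ℓ * u := by ring
    have h1 : (ℓ : ℤ) ∣ z u - z us := by
      have := (hScol u hu).trans (hScol us hus).symm
      rw [hι, eq_intCast, eq_intCast, ZMod.intCast_eq_intCast_iff_dvd_sub] at this
      rw [← dvd_neg, neg_sub]
      exact this
    have h2 := hQs (ℓ * (u - us)) (z u) (dvd_mul_right _ _) (by rw [e1]; exact hz u hu') h1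
      (by rw [e1]; exact hder u hu')
    have e2 : Pt.eval u = Qs.eval (ℓ * (u - us)) := by
      rw [hPt, Polynomial.eval_comp]
      simp
    rw [e2]
    exact h2
  -- all divided differences of order `m` vanish on the class
  have hbound : ((m : ℤ) + 1) * Y * (L₀ : ℤ) ^ (m * m) < (ℓ : ℤ) ^ m := by
    have e : ((m : ℤ) + 1) * Y * (L₀ : ℤ) ^ (m * m) = C₀ * (ℓ : ℤ) ^ d := by
      rw [hY, hC₀, mul_pow]
      ring
    rw [e, hm, pow_succ, mul_comm ((ℓ : ℤ) ^ d)]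
    exact mul_lt_mul_of_pos_right hℓC (pow_pos hℓpos d)
  have hD : ∀ S₁ ⊆ S, S₁.card = m + 1 → s52hq_dd S₁ (fun u => ((z u : ℤ) : ℚ)) = 0 := by
    intro S₁ hS₁ hcard
    refine s52hq_divdiff_zero m S₁ hcard z Pt hPtdeg ((ℓ : ℤ) ^ m)
      (fun u hu => hcong u (hS₁ hu)) Y L₀ (fun u hu => hYb u (hSsub u (hS₁ hu))) ?_ hbound
    intro u hu u' hu'
    obtain ⟨a1, a2⟩ := Finset.mem_Icc.mp (hSsub u (hS₁ hu))
    obtain ⟨b1, b2⟩ := Finset.mem_Icc.mp (hSsub u' (hS₁ hu'))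
    rw [abs_le]
    constructor <;> linarith
  have hmS : m ≤ S.card := by
    have : m ≤ K₁ := by rw [hm, hK₁]; omega
    omega
  obtain ⟨Q, hQdeg, hQ⟩ := s52hq_common_poly m S hmS (fun u => ((z u : ℤ) : ℚ)) hD
  have hcount := s52hq_root_count P hroot c₀ ℓ (by exact_mod_cast hℓ.ne_zero) m Q hQdeg S z
    (fun u hu => ⟨hz u (hSsub u hu), hQ u hu⟩)
  have hm1 : m - 1 = d := by rw [hm]; exact Nat.add_sub_cancel d 1
  rw [hm1] at hcount
  have hlt : S.card < K₁ := by rw [hK₁]; exact Nat.lt_succ_of_le hcount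
  exact absurd hc (not_lt.mpr (le_of_lt hlt))

/-- **Core of the weak Hilbert irreducibility theorem**, ℓ-adic route. -/
theorem s52hq_core (P : Polynomial (Polynomial ℤ)) (hP : P.Monic)
    (A B : Polynomial (Polynomial ℤ)) (R : Polynomial ℤ) (hR : R ≠ 0)
    (hbez : P * A + derivative P * B = C R)
    (hroot : ∀ r : Polynomial ℚ, (s52hq_Pq P).eval r ≠ 0) (N : ℤ) :
    ∃ t : ℤ, N ≤ t ∧ ∀ z : ℤ, (s52hq_sp P t).eval z ≠ 0 := by
  classical
  obtain ⟨c₀, hc₀⟩ : ∃ c₀ : ℤ, R.eval c₀ ≠ 0 := by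
    obtain ⟨c₀, hc₀⟩ := Infinite.exists_notMem_finset R.roots.toFinset
    refine ⟨c₀, fun h => hc₀ ?_⟩
    rw [Multiset.mem_toFinset, Polynomial.mem_roots hR]
    exact h
  obtain ⟨L₀, ℓ₀, h⟩ := s52hq_block P hP A B R hbez hroot c₀ hc₀
  obtain ⟨ℓ, hge, hℓ⟩ := Nat.exists_infinite_primes (ℓ₀ + (N - c₀).toNat)
  obtain ⟨u, hu, hgood⟩ := h ℓ hℓ (by omega)
  refine ⟨c₀ + ℓ * u, ?_, hgood⟩
  obtain ⟨hu1, -⟩ := Finset.mem_Icc.mp hu
  have h1 : N - c₀ ≤ (ℓ : ℤ) := by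
    have : ((N - c₀).toNat : ℤ) ≤ (ℓ : ℤ) := by exact_mod_cast (by omega : (N - c₀).toNat ≤ ℓ)
    exact le_trans (Int.self_le_toNat _) this
  have hℓnn : (0 : ℤ) ≤ ℓ := by positivity
  nlinarith

end Fermat.Agent.S52
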