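import Fermat.Agent.S52.HITP.Red

/-!
# S52 [HIT], ℓ-adic route (prefix `s52hq_`): weak Hilbert irreducibility over `ℤ`

`s52hq_hit` : for `g ∈ ℚ[X][Y]` without root in `ℚ(X)` and every `N` there is an integer `t ≥ N` such
that `g(t, ·)` has no rational root.  (Verbatim the target `s52h_hit` of `HIT/Seams.lean`.)
-/

set_option autoImplicit false

namespace Fermat.Agent.S52

open Polynomial
open scoped Polynomial.Bivariate

theorem s52hq_evalEval (g : Polynomial (Polynomial ℚ)) (t y : ℚ) :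
    evalEval t y g = (g.map (evalRingHom t)).eval y := by
  have := s52hq_hom_eval (evalRingHom t) g (C y)
  simpa using this

/-- **Weak Hilbert irreducibility theorem over `ℤ`.** -/
theorem s52hq_hit (g : ℚ[X][Y])
    (hg : ∀ r : RatFunc ℚ, eval r (g.map (algebraMap ℚ[X] (RatFunc ℚ))) ≠ 0) (N : ℤ) :
    ∃ t : ℤ, N ≤ t ∧ ∀ y : ℚ, evalEval (t : ℚ) y g ≠ 0 := by
  classical
  have hg0 : g ≠ 0 := by
    rintro rfl
    exact hg 0 (by simp)
  set algK : ℚ[X] →+* RatFunc ℚ := algebraMap ℚ[X] (RatFunc ℚ) with halgK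
  have hKinj : Function.Injective algK := IsFractionRing.injective _ _
  rcases Nat.eq_zero_or_pos g.natDegree with hdeg0 | hdeg
  · -- `g` is constant in `Y`
    rw [Polynomial.eq_C_of_natDegree_eq_zero hdeg0] at hg0 ⊢
    have hc0 : g.coeff 0 ≠ 0 := fun h => hg0 (by rw [h, C_0])
    obtain ⟨t, ht, hroot⟩ : ∃ t : ℤ, N ≤ t ∧ (g.coeff 0).eval (t : ℚ) ≠ 0 := by
      by_contra hcon
      push Not at hcon
      have hinf : Set.Infinite {x : ℚ | (g.coeff 0).IsRoot x} := by
        have h1 : Set.Infinite (Set.range fun k : ℕ => ((N + k : ℤ) : ℚ)) := by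
          refine Set.infinite_range_of_injective fun a b hab => ?_
          have : (N + a : ℤ) = N + b := by exact_mod_cast hab
          exact_mod_cast add_left_cancel this
        refine h1.mono ?_
        rintro _ ⟨k, rfl⟩
        exact hcon (N + k) (by linarith [Int.natCast_nonneg k])
      exact hinf (Polynomial.finite_setOfPred_isRoot hc0)
    exact ⟨t, ht, fun y => by rw [evalEval_C]; exact hroot⟩
  -- clear denominators
  obtain ⟨D, hD, g₁, hg₁⟩ := s52hq_clear g
  set φ₀ : Polynomial ℤ →+* Polynomial ℚ := mapRingHom (Int.castRingHom ℚ) with hφ₀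
  have hφ₀inj : Function.Injective φ₀ := by
    rw [hφ₀, coe_mapRingHom]
    exact Polynomial.map_injective _ Int.cast_injective
  have hCD : (C (C (D : ℚ)) : ℚ[X][Y]) ≠ 0 := by
    rw [Ne, C_eq_zero, C_eq_zero]
    exact_mod_cast hD
  have hdeg₁ : g₁.natDegree = g.natDegree := by
    rw [← Polynomial.natDegree_map_eq_of_injective hφ₀inj g₁, hg₁,
      Polynomial.natDegree_C_mul (by rwa [Ne, C_eq_zero] at hCD)]
  have hg₁0 : g₁ ≠ 0 := by
    rintro rfl
    rw [Polynomial.natDegree_zero] at hdeg₁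
    omega
  have hdeg₁' : 1 ≤ g₁.natDegree := by omega
  set b := g₁.leadingCoeff with hb
  have hb0 : b ≠ 0 := leadingCoeff_ne_zero.mpr hg₁0
  set P₀ := g₁.integralNormalization with hP₀
  have hP₀monic : P₀.Monic := Polynomial.monic_integralNormalization hg₁0
  have hP₀deg : 1 ≤ P₀.natDegree := by
    rw [hP₀, Polynomial.natDegree_integralNormalization]
    exact hdeg₁'
  obtain ⟨P, A, B, R, k, hPmonic, hR, hbez, hPdvd, hpow⟩ := s52hq_sqfree P₀ hP₀monic hP₀deg
  -- no root in `ℚ[X]`
  have hroot : ∀ r : Polynomial ℚ, (s52hq_Pq P).eval r ≠ 0 := by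
    intro r hr
    have h1 : (s52hq_Pq P₀).eval r = 0 :=
      Polynomial.eval_eq_zero_of_dvd_of_eval_eq_zero (Polynomial.map_dvd _ hPdvd) hr
    set j : Polynomial ℤ →+* RatFunc ℚ := algK.comp φ₀ with hj
    have hjinj : Function.Injective j := hKinj.comp hφ₀inj
    have h2 : P₀.eval₂ j (algK r) = 0 := by
      have := Polynomial.hom_eval₂ P₀ φ₀ algK r
      rw [← hj] at this
      rw [← this]
      unfold s52hq_Pq at h1
      rw [Polynomial.eval_map] at h1
      rw [h1, map_zero]
    have hjb : j b ≠ 0 := fun h => hb0 (hjinj (h.trans (map_zero j).symm))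
    have h3 := Polynomial.integralNormalization_eval₂_leadingCoeff_mul hdeg₁' j (algK r / j b)
    rw [← hb, mul_div_cancel₀ _ hjb, ← hP₀, h2] at h3
    have h4 : g₁.eval₂ j (algK r / j b) = 0 :=
      (mul_eq_zero.mp h3.symm).resolve_left (pow_ne_zero _ hjb)
    have h5 : g₁.eval₂ j (algK r / j b) =
        algK (C (D : ℚ)) * eval (algK r / j b) (g.map algK) := by
      rw [hj, ← Polynomial.eval₂_map, hg₁, Polynomial.eval₂_mul, Polynomial.eval₂_C,
        Polynomial.eval_map]
    rw [h5] at h4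
    have hD' : algK (C (D : ℚ)) ≠ 0 := by
      intro h
      have := hKinj (h.trans (map_zero algK).symm)
      rw [C_eq_zero] at this
      exact hD (by exact_mod_cast this)
    exact hg _ ((mul_eq_zero.mp h4).resolve_left hD')
  -- the core
  obtain ⟨t, ht, hgood⟩ := s52hq_core P hPmonic A B R hR hbez hroot N
  refine ⟨t, ht, fun y hy => ?_⟩
  set ft : Polynomial ℤ →+* ℚ := (Int.castRingHom ℚ).comp (evalRingHom t) with hft
  have hft' : ft = (evalRingHom (t : ℚ)).comp φ₀ := by
    refine Polynomial.ringHom_ext (fun a => ?_) ?_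
    · simp [hft, hφ₀]
    · simp [hft, hφ₀]
  -- `y` is a root of `g₁(t, ·)`
  have h1 : g₁.eval₂ ft y = 0 := by
    rw [hft', ← Polynomial.eval₂_map, hg₁, Polynomial.eval₂_mul, Polynomial.eval₂_C,
      ← Polynomial.eval_map, ← s52hq_evalEval, hy, mul_zero]
  -- `ft b * y` is a root of `P₀(t, ·)`
  have h2 := Polynomial.integralNormalization_eval₂_leadingCoeff_mul hdeg₁' ft y
  rw [h1, mul_zero, ← hP₀, ← hb] at h2
  have h3 : aeval (ft b * y) (s52hq_sp P₀ t) = 0 := by
    rw [Polynomial.aeval_def]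
    unfold s52hq_sp
    rw [Polynomial.eval₂_map]
    exact h2
  obtain ⟨z, hz⟩ := isInteger_of_is_root_of_monic (s52hq_sp_monic hP₀monic t) h3
  have h4 : (s52hq_sp P₀ t).eval z = 0 := by
    have : (((s52hq_sp P₀ t).eval z : ℤ) : ℚ) = 0 := by
      rw [← hz, Polynomial.aeval_def, Polynomial.eval₂_at_apply] at h3
      exact h3
    exact_mod_cast this
  have h5 : (s52hq_sp P t).eval z ^ k = 0 := by
    have hd : s52hq_sp P₀ t ∣ (s52hq_sp P t) ^ k := by
      unfold s52hq_sp
      rw [← Polynomial.map_pow]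
      exact Polynomial.map_dvd _ hpow
    have := Polynomial.eval_eq_zero_of_dvd_of_eval_eq_zero hd h4
    rwa [Polynomial.eval_pow] at this
  exact hgood z (eq_zero_of_pow_eq_zero h5)

end Fermat.Agent.S52
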