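import Fermat.Agent.S52.HITP.Core

/-!
# S52 [HIT], ℓ-adic route (prefix `s52hq_`): reduction of a general `g ∈ ℚ[X][Y]` to the core

* `s52hq_clear` : `∃ D ≠ 0, ∃ g₁ ∈ ℤ[X][Y]`, `g₁ ↦ D • g`;
* `s52hq_sqfree` : for a monic `P₀ ∈ ℤ[X][Y]` a monic `P ∣ P₀` with `P₀ ∣ P ^ k`, separable over
  `Frac ℤ[X]`, with a Bezout identity `P * A + ∂_Y P * B = C R`, `R ≠ 0`, over `ℤ[X][Y]`
  (radical over the fraction field, pulled back by Gauss's lemma; resultant).
-/

set_option autoImplicit false

namespace Fermat.Agent.S52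

open Polynomial

/-- Clearing the denominators of a polynomial over `ℚ`. -/
theorem s52hq_clear₁ (p : Polynomial ℚ) :
    ∃ D : ℤ, D ≠ 0 ∧ ∃ p₁ : Polynomial ℤ, p₁.map (Int.castRingHom ℚ) = C (D : ℚ) * p := by
  obtain ⟨b, hbM, hb⟩ := IsLocalization.integerNormalization_spec (nonZeroDivisors ℤ) p
  refine ⟨b, nonZeroDivisors.ne_zero hbM,
    IsLocalization.integerNormalization (nonZeroDivisors ℤ) p, ?_⟩
  rw [show Int.castRingHom ℚ = algebraMap ℤ ℚ from rfl, hb]
  rw [Algebra.smul_def]
  simp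

/-- Clearing the denominators of a bivariate polynomial over `ℚ`. -/
theorem s52hq_clear (g : Polynomial (Polynomial ℚ)) :
    ∃ D : ℤ, D ≠ 0 ∧ ∃ g₁ : Polynomial (Polynomial ℤ),
      g₁.map (mapRingHom (Int.castRingHom ℚ)) = C (C (D : ℚ)) * g := by
  induction g using Polynomial.induction_on' with
  | add p q hp hq =>
    obtain ⟨D₁, hD₁, p₁, hp₁⟩ := hp
    obtain ⟨D₂, hD₂, q₁, hq₁⟩ := hq
    refine ⟨D₁ * D₂, mul_ne_zero hD₁ hD₂, C (C D₂) * p₁ + C (C D₁) * q₁, ?_⟩
    rw [Polynomial.map_add, Polynomial.map_mul, Polynomial.map_mul, hp₁, hq₁,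
      Polynomial.map_C, Polynomial.map_C, coe_mapRingHom, Polynomial.map_C, Polynomial.map_C,
      eq_intCast, eq_intCast, Int.cast_mul, C_mul, C_mul]
    ring
  | monomial n a =>
    obtain ⟨D, hD, a₁, ha₁⟩ := s52hq_clear₁ a
    refine ⟨D, hD, monomial n a₁, ?_⟩
    rw [Polynomial.map_monomial, coe_mapRingHom, ha₁, Polynomial.C_mul_monomial]

/-- **Squarefree part with a Bezout identity over `ℤ[X][Y]`.** -/
theorem s52hq_sqfree (P₀ : Polynomial (Polynomial ℤ)) (hP₀ : P₀.Monic) (hdeg : 1 ≤ P₀.natDegree) :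
    ∃ (P A B : Polynomial (Polynomial ℤ)) (R : Polynomial ℤ) (k : ℕ), P.Monic ∧ R ≠ 0 ∧
      P * A + derivative P * B = C R ∧ P ∣ P₀ ∧ P₀ ∣ P ^ k := by
  classical
  set alg : Polynomial ℤ →+* FractionRing (Polynomial ℤ) :=
    algebraMap (Polynomial ℤ) (FractionRing (Polynomial ℤ)) with halg
  have hinj : Function.Injective alg := IsFractionRing.injective _ _
  set f := P₀.map alg with hf
  have hf0 : f ≠ 0 := (hP₀.map alg).ne_zero
  set h := UniqueFactorizationMonoid.radical f with hh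
  have hdvd : h ∣ f := UniqueFactorizationMonoid.radical_dvd_self
  obtain ⟨k, hk⟩ := UniqueFactorizationMonoid.exists_dvd_radical_self_pow hf0
  have hsq : Squarefree h := UniqueFactorizationMonoid.squarefree_radical
  have hsep : h.Separable := PerfectField.separable_iff_squarefree.mpr hsq
  obtain ⟨P, hP⟩ := IsIntegrallyClosed.eq_map_mul_C_of_dvd (FractionRing (Polynomial ℤ)) hP₀ hdvd
  have hh0 : h ≠ 0 := UniqueFactorizationMonoid.radical_ne_zero
  have hlc : h.leadingCoeff ≠ 0 := leadingCoeff_ne_zero.mpr hh0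
  have hPmonic : P.Monic := by
    have h1 : (P.map alg).leadingCoeff * h.leadingCoeff = h.leadingCoeff := by
      conv_rhs => rw [← hP, leadingCoeff_mul, leadingCoeff_C]
    have h2 : (P.map alg).leadingCoeff = 1 :=
      mul_right_cancel₀ hlc (h1.trans (one_mul _).symm)
    rw [Polynomial.leadingCoeff_map_of_injective hinj] at h2
    exact hinj (h2.trans (map_one alg).symm)
  have hunit : IsUnit (C h.leadingCoeff) := isUnit_C.mpr hlc.isUnit
  have hPdvdh : P.map alg ∣ h := ⟨_, hP.symm⟩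
  have hPdvd : P ∣ P₀ := (Polynomial.map_dvd_map alg hinj hPmonic).mp (dvd_trans hPdvdh hdvd)
  have hpow : P₀ ∣ P ^ k := by
    refine (Polynomial.map_dvd_map alg hinj hP₀).mp ?_
    rw [Polynomial.map_pow]
    have h1 : f ∣ (P.map alg) ^ k * (C h.leadingCoeff) ^ k := by
      rw [← mul_pow, hP]
      exact hk
    exact (IsUnit.dvd_mul_right (hunit.pow k)).mp h1
  have hPsep : (P.map alg).Separable := by
    rw [← hP] at hsep
    exact hsep.of_mul_left
  have hPdeg : P.natDegree ≠ 0 := by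
    intro h0
    have h1 : P = 1 := Polynomial.eq_one_of_monic_natDegree_zero hPmonic h0
    rw [h1, one_pow] at hpow
    have := Polynomial.natDegree_eq_zero_of_isUnit (isUnit_of_dvd_one hpow)
    omega
  obtain ⟨A, B, -, -, hAB⟩ := Polynomial.exists_mul_add_mul_eq_C_resultant P (derivative P)
    le_rfl le_rfl (Or.inl hPdeg)
  refine ⟨P, A, B, _, k, hPmonic, ?_, hAB, hPdvd, hpow⟩
  intro hR
  have h1 : resultant (P.map alg) ((derivative P).map alg) P.natDegree (derivative P).natDegree =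
      alg (resultant P (derivative P) P.natDegree (derivative P).natDegree) :=
    Polynomial.resultant_map_map _ _ _ _ alg
  rw [hR, map_zero] at h1
  have e1 : (P.map alg).natDegree = P.natDegree := hPmonic.natDegree_map alg
  have e2 : ((derivative P).map alg).natDegree = (derivative P).natDegree :=
    Polynomial.natDegree_map_eq_of_injective hinj _
  rw [← e1, ← e2, ← Polynomial.derivative_map] at h1
  have h2 := (Polynomial.resultant_eq_zero_iff).mp h1
  exact h2.2 hPsep

end Fermat.Agent.S52
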