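import Mathlib

/-!
# S52 [HIT], ℓ-adic route (prefix `s52hq_`): truncated Taylor solutions and their uniqueness

* `s52hq_eval_coeff_zero` : the constant coefficient of `G(s, P(s))` is `G(0, P(0))`;
* `s52hq_taylor` : over any commutative ring `R`, if `G(0, β) = 0` and `∂_Y G(0, β)` is a unit then
  for every `m ≥ 1` there is `P ∈ R[s]` of degree `< m` with `P(0) = β` and `s^m ∣ G(s, P(s))`
  (Newton steps, `Polynomial.binomExpansion`);
* `s52hq_unique` : over `ℤ`, a root `y` of `h` with `ℓ ∤ h'(y)` is the only root of `h` mod `ℓ^m`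
  in its residue class mod `ℓ`.

`G : Polynomial (Polynomial R)`: the OUTER variable is `Y`, the INNER variable is `s`.
-/

set_option autoImplicit false

namespace Fermat.Agent.S52

open Polynomial

section Taylor

variable {R : Type*} [CommRing R]

/-- A ring homomorphism commutes with evaluation of a polynomial with polynomial coefficients. -/
theorem s52hq_hom_eval {S : Type*} [CommRing S] (φ : Polynomial R →+* S)
    (G : Polynomial (Polynomial R)) (P : Polynomial R) :
    φ (G.eval P) = (G.map φ).eval (φ P) := by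
  rw [Polynomial.eval_map, ← Polynomial.eval₂_id (p := G) (x := P), Polynomial.hom_eval₂,
    RingHom.comp_id]

/-- The constant coefficient of `G(s, P(s))` is `G(0, P(0))`. -/
theorem s52hq_eval_coeff_zero (G : Polynomial (Polynomial R)) (P : Polynomial R) :
    (G.eval P).coeff 0 = (G.map (evalRingHom 0)).eval (P.coeff 0) := by
  have h := s52hq_hom_eval (evalRingHom (0 : R)) G P
  rw [coe_evalRingHom, ← Polynomial.coeff_zero_eq_eval_zero,
    ← Polynomial.coeff_zero_eq_eval_zero] at h
  exact h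

/-- **Truncated Taylor solution** (Newton steps). -/
theorem s52hq_taylor (G : Polynomial (Polynomial R)) (β : R)
    (h0 : (G.map (evalRingHom 0)).eval β = 0)
    (h1 : IsUnit ((G.map (evalRingHom 0)).derivative.eval β)) (m : ℕ) :
    ∃ P : Polynomial R, P.natDegree < m + 1 ∧ P.coeff 0 = β ∧ X ^ (m + 1) ∣ G.eval P := by
  induction m with
  | zero =>
    refine ⟨C β, by simp, by simp, ?_⟩
    rw [zero_add, pow_one, Polynomial.X_dvd_iff, s52hq_eval_coeff_zero, Polynomial.coeff_C_zero]
    exact h0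
  | succ m ih =>
    obtain ⟨P, hdeg, hP0, H, hH⟩ := ih
    obtain ⟨a, ha⟩ := h1
    set b : R := -(H.coeff 0) * ↑a⁻¹ with hb
    refine ⟨P + C b * X ^ (m + 1), ?_, ?_, ?_⟩
    · refine lt_of_le_of_lt (Polynomial.natDegree_add_le _ _) ?_
      refine max_lt (by omega) ?_
      exact lt_of_le_of_lt (Polynomial.natDegree_C_mul_X_pow_le b (m + 1)) (by omega)
    · rw [Polynomial.coeff_add, hP0, Polynomial.coeff_C_mul, Polynomial.coeff_X_pow]
      simp
    · obtain ⟨κ, hκ⟩ := Polynomial.binomExpansion G P (C b * X ^ (m + 1))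
      rw [hκ, hH]
      have hX : (X : Polynomial R) ∣ H + G.derivative.eval P * C b := by
        rw [Polynomial.X_dvd_iff, Polynomial.coeff_add, Polynomial.coeff_mul_C,
          s52hq_eval_coeff_zero, hP0, ← Polynomial.derivative_map, ← ha, hb]
        rw [mul_comm (-(H.coeff 0)), ← mul_assoc, Units.mul_inv, one_mul, add_neg_cancel]
      obtain ⟨Z, hZ⟩ := hX
      refine ⟨Z + κ * C b ^ 2 * X ^ m, ?_⟩
      have e1 : X ^ (m + 1) * H + G.derivative.eval P * (C b * X ^ (m + 1)) =
          X ^ (m + 1) * (H + G.derivative.eval P * C b) := by ring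
      rw [e1, hZ]
      ring

end Taylor

/-- **Uniqueness mod `ℓ^m`** of a root in a residue class mod `ℓ` where the derivative is a unit. -/
theorem s52hq_unique (h : Polynomial ℤ) {ℓ : ℕ} (hℓ : ℓ.Prime) (m : ℕ) (y z : ℤ)
    (hy : h.eval y = 0) (hz : (ℓ : ℤ) ^ m ∣ h.eval z) (hyz : (ℓ : ℤ) ∣ z - y)
    (hd : ¬ (ℓ : ℤ) ∣ h.derivative.eval y) : (ℓ : ℤ) ^ m ∣ z - y := by
  obtain ⟨κ, hκ⟩ := Polynomial.binomExpansion h y (z - y)
  rw [add_sub_cancel, hy, zero_add] at hκ
  have e : h.eval z = (z - y) * (h.derivative.eval y + κ * (z - y)) := by rw [hκ]; ring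
  rw [e] at hz
  refine (Nat.prime_iff_prime_int.mp hℓ).pow_dvd_of_dvd_mul_right m ?_ hz
  intro hdvd
  apply hd
  have h2 : (ℓ : ℤ) ∣ κ * (z - y) := Dvd.dvd.mul_left hyz κ
  exact (Int.dvd_add_left h2).mp hdvd

end Fermat.Agent.S52
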